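import Mathlib

/-!
# S55 library: common cohomology language (unbundled, low degree)

* plain cohomology `H1 G A`, `H2 G A` of a group `G` acting on an additive group `A`
  (cochains are functions, predicates are Mathlib's `groupCohomology.IsCocycle₁` ...);
* level cohomology `LH1 𝓤 A`, `LH2 𝓤 A` for a level system `𝓤 : Lev G`;
* invariants `inv N A` with the action of `G ⧸ N`;
* the conjugation module `HomM X A`;
* (smooth) coinduction along a group homomorphism.
-/

set_option autoImplicit false
set_option linter.unusedSectionVars false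
set_option linter.unusedVariables false

namespace Fermat.Agent.S55Lib

open groupCohomology

universe u v w

section Plain

variable (G : Type u) [Group G] (A : Type v) [AddCommGroup A] [DistribMulAction G A]

/-- 1-cocycles. -/
def Z1 : AddSubgroup (G → A) where
  carrier := {f | IsCocycle₁ f}
  zero_mem' := fun g h => by simp
  add_mem' := fun {a b} ha hb g h => by
    simp only [Pi.add_apply, ha g h, hb g h, smul_add]; abel
  neg_mem' := fun {a} ha g h => by
    simp only [Pi.neg_apply, ha g h, smul_neg]; abel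

/-- 1-coboundaries. -/
def B1 : AddSubgroup (G → A) where
  carrier := {f | IsCoboundary₁ f}
  zero_mem' := ⟨0, fun g => by simp⟩
  add_mem' := fun {a b} ⟨x, hx⟩ ⟨y, hy⟩ => ⟨x + y, fun g => by
    simp only [Pi.add_apply, ← hx g, ← hy g, smul_add]; abel⟩
  neg_mem' := fun {a} ⟨x, hx⟩ => ⟨-x, fun g => by
    simp only [Pi.neg_apply, ← hx g, smul_neg]; abel⟩

/-- 2-cocycles. -/
def Z2 : AddSubgroup (G × G → A) where
  carrier := {f | IsCocycle₂ f}
  zero_mem' := fun g h j => by simp
  add_mem' := fun {a b} ha hb g h j => by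
    have h1 := ha g h j
    have h2 := hb g h j
    simp only [Pi.add_apply, smul_add]
    calc a (g * h, j) + b (g * h, j) + (a (g, h) + b (g, h))
        = (a (g * h, j) + a (g, h)) + (b (g * h, j) + b (g, h)) := by abel
      _ = _ := by rw [h1, h2]; abel
  neg_mem' := fun {a} ha g h j => by
    have h1 := ha g h j
    simp only [Pi.neg_apply, smul_neg]
    calc -a (g * h, j) + -a (g, h) = -(a (g * h, j) + a (g, h)) := by abel
      _ = _ := by rw [h1]; abel

/-- 2-coboundaries. -/
def B2 : AddSubgroup (G × G → A) where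
  carrier := {f | IsCoboundary₂ f}
  zero_mem' := ⟨0, fun g h => by simp⟩
  add_mem' := fun {a b} ⟨x, hx⟩ ⟨y, hy⟩ => ⟨x + y, fun g h => by
    simp only [Pi.add_apply, ← hx g h, ← hy g h, smul_add]; abel⟩
  neg_mem' := fun {a} ⟨x, hx⟩ => ⟨-x, fun g h => by
    simp only [Pi.neg_apply, ← hx g h, smul_neg]; abel⟩

/-- `H¹(G,A)`. -/
abbrev H1 : Type max u v := ↥(Z1 G A) ⧸ (B1 G A).addSubgroupOf (Z1 G A)

/-- `H²(G,A)`. -/
abbrev H2 : Type max u v := ↥(Z2 G A) ⧸ (B2 G A).addSubgroupOf (Z2 G A)

variable {G A}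

lemma mem_Z1 {f : G → A} : f ∈ Z1 G A ↔ IsCocycle₁ f := Iff.rfl
lemma mem_B1 {f : G → A} : f ∈ B1 G A ↔ IsCoboundary₁ f := Iff.rfl
lemma mem_Z2 {f : G × G → A} : f ∈ Z2 G A ↔ IsCocycle₂ f := Iff.rfl
lemma mem_B2 {f : G × G → A} : f ∈ B2 G A ↔ IsCoboundary₂ f := Iff.rfl

/-- class of a 1-cocycle -/
def H1.mk (f : Z1 G A) : H1 G A := QuotientAddGroup.mk f
/-- class of a 2-cocycle -/
def H2.mk (f : Z2 G A) : H2 G A := QuotientAddGroup.mk f

lemma H1.mk_eq_zero {f : Z1 G A} : H1.mk f = 0 ↔ IsCoboundary₁ (f : G → A) := by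
  simp [H1.mk, QuotientAddGroup.eq_zero_iff, AddSubgroup.mem_addSubgroupOf, mem_B1]

lemma H2.mk_eq_zero {f : Z2 G A} : H2.mk f = 0 ↔ IsCoboundary₂ (f : G × G → A) := by
  simp [H2.mk, QuotientAddGroup.eq_zero_iff, AddSubgroup.mem_addSubgroupOf, mem_B2]

end Plain

section Equivariant

variable {G : Type u} [Group G] {H : Type w} [Group H]
  {A : Type v} [AddCommGroup A] [DistribMulAction G A]
  {B : Type v} [AddCommGroup B] [DistribMulAction H B]

/-- `φ : A →+ B` is compatible with `r : H →* G` (`A` a `G`-module, `B` an `H`-module):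
`φ (r h • a) = h • φ a`.  With `r = id` this is `G`-equivariance. -/
def Compat (r : H →* G) (φ : A →+ B) : Prop := ∀ (h : H) (a : A), φ (r h • a) = h • φ a

end Equivariant

section Invariants

variable {G : Type u} [Group G] (N : Subgroup G) (A : Type v) [AddCommGroup A]
  [DistribMulAction G A]

/-- `A^N`. -/
def inv : AddSubgroup A where
  carrier := {a | ∀ n ∈ N, n • a = a}
  zero_mem' := fun n _ => smul_zero n
  add_mem' := fun {a b} ha hb n hn => by rw [smul_add, ha n hn, hb n hn]
  neg_mem' := fun {a} ha n hn => by rw [smul_neg, ha n hn]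

variable {N A}

lemma mem_inv {a : A} : a ∈ inv N A ↔ ∀ n ∈ N, n • a = a := Iff.rfl

lemma smul_mem_inv [N.Normal] (g : G) {a : A} (ha : a ∈ inv N A) : g • a ∈ inv N A := by
  intro n hn
  have h1 : g⁻¹ * n * g ∈ N := by
    have := Subgroup.Normal.conj_mem (inferInstance : N.Normal) n hn g⁻¹
    simpa using this
  have h2 := ha _ h1
  calc n • g • a = g • (g⁻¹ * n * g) • a := by simp only [smul_smul]; group
    _ = g • a := by rw [h2]

/-- `G` acts on `A^N` (for `N` normal). -/
instance invAction [N.Normal] : DistribMulAction G (inv N A) where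
  smul g a := ⟨g • (a : A), smul_mem_inv g a.2⟩
  one_smul a := Subtype.ext (one_smul G (a : A))
  mul_smul g h a := Subtype.ext (mul_smul g h (a : A))
  smul_zero g := Subtype.ext (smul_zero g)
  smul_add g a b := Subtype.ext (smul_add g (a : A) (b : A))

@[simp] lemma coe_smul_inv [N.Normal] (g : G) (a : inv N A) : ((g • a : inv N A) : A) = g • (a : A) :=
  rfl

/-- `G ⧸ N` acts on `A^N`. -/
instance invQuotAction [N.Normal] : DistribMulAction (G ⧸ N) (inv N A) where
  smul q a := Quotient.liftOn' q (fun g => g • a) (fun g h hgh => by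
    have h1 : g⁻¹ * h ∈ N := QuotientGroup.leftRel_apply.1 hgh
    apply Subtype.ext
    have h2 := a.2 _ h1
    show g • (a : A) = h • (a : A)
    calc g • (a : A) = g • (g⁻¹ * h) • (a : A) := by rw [h2]
      _ = h • (a : A) := by simp only [smul_smul]; group)
  one_smul a := one_smul G a
  mul_smul q r a := by
    induction q using QuotientGroup.induction_on with
    | H g =>
      induction r using QuotientGroup.induction_on with
      | H h => exact mul_smul g h a
  smul_zero q := by
    induction q using QuotientGroup.induction_on with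
    | H g => exact smul_zero (A := inv N A) g
  smul_add q a b := by
    induction q using QuotientGroup.induction_on with
    | H g => exact smul_add g a b

@[simp] lemma mk_smul_inv [N.Normal] (g : G) (a : inv N A) :
    ((g : G ⧸ N) • a : inv N A) = g • a := rfl

end Invariants

section HomModule

/-- `Hom_ℤ(X,A)` with the conjugation action `(g φ)(x) = g φ(g⁻¹ x)`
(a synonym of `X →+ A`; `G` is recorded to drive instance search). -/
@[nolint unusedArguments]
def HomM (_G : Type u) (X : Type v) [AddCommGroup X] (A : Type w) [AddCommGroup A] :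
    Type max v w := X →+ A

variable {G : Type u} [Group G] {X : Type v} [AddCommGroup X] [DistribMulAction G X]
  {A : Type w} [AddCommGroup A] [DistribMulAction G A]

instance : AddCommGroup (HomM G X A) := inferInstanceAs (AddCommGroup (X →+ A))

/-- the underlying additive map -/
def HomM.toHom (φ : HomM G X A) : X →+ A := φ
/-- build an element of `HomM` -/
def HomM.of (φ : X →+ A) : HomM G X A := φ

instance : FunLike (HomM G X A) X A where
  coe φ := (HomM.toHom φ : X → A)
  coe_injective := fun φ ψ h => DFunLike.coe_injective (F := X →+ A) h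

instance : AddMonoidHomClass (HomM G X A) X A where
  map_add φ := map_add (HomM.toHom φ)
  map_zero φ := map_zero (HomM.toHom φ)

@[ext] lemma HomM.ext {φ ψ : HomM G X A} (h : ∀ x, φ x = ψ x) : φ = ψ := DFunLike.ext _ _ h

@[simp] lemma HomM.add_apply (φ ψ : HomM G X A) (x : X) : (φ + ψ) x = φ x + ψ x := rfl
@[simp] lemma HomM.zero_apply (x : X) : (0 : HomM G X A) x = 0 := rfl
@[simp] lemma HomM.neg_apply (φ : HomM G X A) (x : X) : (-φ) x = -φ x := rfl
@[simp] lemma HomM.sub_apply (φ ψ : HomM G X A) (x : X) : (φ - ψ) x = φ x - ψ x := rfl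
@[simp] lemma HomM.of_apply (φ : X →+ A) (x : X) : (HomM.of φ : HomM G X A) x = φ x := rfl

instance : DistribMulAction G (HomM G X A) where
  smul g φ := HomM.of
    { toFun := fun x => g • φ (g⁻¹ • x)
      map_zero' := by simp
      map_add' := fun x y => by simp [smul_add] }
  one_smul φ := HomM.ext fun x => by
    show (1 : G) • φ ((1 : G)⁻¹ • x) = φ x
    simp
  mul_smul g h φ := HomM.ext fun x => by
    show (g * h) • φ ((g * h)⁻¹ • x) = g • h • φ (h⁻¹ • g⁻¹ • x)
    simp [mul_smul]
  smul_zero g := HomM.ext fun x => by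
    show g • (0 : A) = 0
    simp
  smul_add g φ ψ := HomM.ext fun x => by
    show g • (φ (g⁻¹ • x) + ψ (g⁻¹ • x)) = g • φ (g⁻¹ • x) + g • ψ (g⁻¹ • x)
    simp

@[simp] lemma HomM.smul_apply (g : G) (φ : HomM G X A) (x : X) : (g • φ) x = g • φ (g⁻¹ • x) := rfl

/-- `φ` is fixed by `G` iff it is equivariant. -/
lemma HomM.mem_inv_top {φ : HomM G X A} :
    φ ∈ inv (⊤ : Subgroup G) (HomM G X A) ↔ ∀ (g : G) (x : X), φ (g • x) = g • φ x := by
  constructor
  · intro h g x
    have := congrArg (fun ψ : HomM G X A => ψ (g • x)) (h g trivial)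
    simpa using this.symm
  · intro h g _
    ext x
    simp [h]

end HomModule

section Levels

/-- A level system: a nonempty, downward directed set of normal subgroups of finite index. -/
structure Lev (G : Type u) [Group G] where
  mem : Set (Subgroup G)
  normal : ∀ U ∈ mem, U.Normal
  finiteIndex : ∀ U ∈ mem, U.FiniteIndex
  nonempty : mem.Nonempty
  directed : ∀ U ∈ mem, ∀ V ∈ mem, ∃ W ∈ mem, W ≤ U ∧ W ≤ V

variable {G : Type u} [Group G] (𝓤 : Lev G)

/-- right-invariance of a 1-cochain under some level -/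
def Lev.Const₁ {X : Type*} (f : G → X) : Prop :=
  ∃ U ∈ 𝓤.mem, ∀ g, ∀ s ∈ U, f (g * s) = f g

/-- right-invariance of a 2-cochain under some level -/
def Lev.Const₂ {X : Type*} (f : G × G → X) : Prop :=
  ∃ U ∈ 𝓤.mem, ∀ g h, ∀ s ∈ U, ∀ t ∈ U, f (g * s, h * t) = f (g, h)

/-- every element is fixed by some level -/
def Lev.Smooth (A : Type v) [AddCommGroup A] [DistribMulAction G A] : Prop :=
  ∀ a : A, ∃ U ∈ 𝓤.mem, ∀ s ∈ U, s • a = a

/-- the one-element level system `{N}` -/
def Lev.single (N : Subgroup G) [hN : N.Normal] [hf : N.FiniteIndex] : Lev G where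
  mem := {N}
  normal := fun U hU => by rw [Set.mem_singleton_iff.1 hU]; exact hN
  finiteIndex := fun U hU => by rw [Set.mem_singleton_iff.1 hU]; exact hf
  nonempty := ⟨N, rfl⟩
  directed := fun U hU V hV => ⟨N, rfl, by rw [Set.mem_singleton_iff.1 hU],
    by rw [Set.mem_singleton_iff.1 hV]⟩

variable {𝓤}

lemma Lev.Const₁.add {X : Type*} [Add X] {f f' : G → X} (hf : 𝓤.Const₁ f) (hf' : 𝓤.Const₁ f') :
    𝓤.Const₁ (f + f') := by
  obtain ⟨U, hU, h⟩ := hf
  obtain ⟨V, hV, h'⟩ := hf'
  obtain ⟨W, hW, hWU, hWV⟩ := 𝓤.directed U hU V hV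
  exact ⟨W, hW, fun g s hs => by simp only [Pi.add_apply, h g s (hWU hs), h' g s (hWV hs)]⟩

lemma Lev.Const₂.add {X : Type*} [Add X] {f f' : G × G → X} (hf : 𝓤.Const₂ f)
    (hf' : 𝓤.Const₂ f') : 𝓤.Const₂ (f + f') := by
  obtain ⟨U, hU, h⟩ := hf
  obtain ⟨V, hV, h'⟩ := hf'
  obtain ⟨W, hW, hWU, hWV⟩ := 𝓤.directed U hU V hV
  exact ⟨W, hW, fun g k s hs t ht => by
    simp only [Pi.add_apply, h g k s (hWU hs) t (hWU ht), h' g k s (hWV hs) t (hWV ht)]⟩

lemma Lev.Const₁.comp {X Y : Type*} {f : G → X} (hf : 𝓤.Const₁ f) (φ : X → Y) :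
    𝓤.Const₁ (φ ∘ f) := by
  obtain ⟨U, hU, h⟩ := hf
  exact ⟨U, hU, fun g s hs => by simp only [Function.comp_apply, h g s hs]⟩

lemma Lev.Const₂.comp {X Y : Type*} {f : G × G → X} (hf : 𝓤.Const₂ f) (φ : X → Y) :
    𝓤.Const₂ (φ ∘ f) := by
  obtain ⟨U, hU, h⟩ := hf
  exact ⟨U, hU, fun g k s hs t ht => by simp only [Function.comp_apply, h g k s hs t ht]⟩

lemma Lev.const₁_const {X : Type*} (x : X) : 𝓤.Const₁ (fun _ : G => x) := by
  obtain ⟨U, hU⟩ := 𝓤.nonempty
  exact ⟨U, hU, fun _ _ _ => rfl⟩

lemma Lev.const₂_const {X : Type*} (x : X) : 𝓤.Const₂ (fun _ : G × G => x) := by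
  obtain ⟨U, hU⟩ := 𝓤.nonempty
  exact ⟨U, hU, fun _ _ _ _ _ _ => rfl⟩

variable (𝓤) (A : Type v) [AddCommGroup A] [DistribMulAction G A]

/-- level 1-cochains -/
def LC1 : AddSubgroup (G → A) where
  carrier := {f | 𝓤.Const₁ f}
  zero_mem' := Lev.const₁_const (0 : A)
  add_mem' := fun ha hb => ha.add hb
  neg_mem' := fun ha => ha.comp (fun x => -x)

/-- level 2-cochains -/
def LC2 : AddSubgroup (G × G → A) where
  carrier := {f | 𝓤.Const₂ f}
  zero_mem' := Lev.const₂_const (0 : A)
  add_mem' := fun ha hb => ha.add hb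
  neg_mem' := fun ha => ha.comp (fun x => -x)

/-- the coboundary `C¹ → C²` -/
def d12 : (G → A) →+ (G × G → A) where
  toFun x := fun gh => gh.1 • x gh.2 - x (gh.1 * gh.2) + x gh.1
  map_zero' := by ext; simp
  map_add' x y := by ext gh; simp only [Pi.add_apply, smul_add]; abel

/-- level 1-cocycles -/
def LZ1 : AddSubgroup (G → A) := Z1 G A ⊓ LC1 𝓤 A
/-- level 1-coboundaries (coboundaries that are level constant; all of them if `A` is smooth) -/
def LB1 : AddSubgroup (G → A) := B1 G A ⊓ LC1 𝓤 A
/-- level 2-cocycles -/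
def LZ2 : AddSubgroup (G × G → A) := Z2 G A ⊓ LC2 𝓤 A
/-- coboundaries of level 1-cochains -/
def LB2 : AddSubgroup (G × G → A) := (LC1 𝓤 A).map (d12 A)

/-- level `H¹` -/
abbrev LH1 : Type max u v := ↥(LZ1 𝓤 A) ⧸ (LB1 𝓤 A).addSubgroupOf (LZ1 𝓤 A)
/-- level `H²` -/
abbrev LH2 : Type max u v := ↥(LZ2 𝓤 A) ⧸ (LB2 𝓤 A).addSubgroupOf (LZ2 𝓤 A)

end Levels

section Coinduction

variable {G : Type u} [Group G] {H : Type w} [Group H] (r : H →* G)
  (B : Type v) [AddCommGroup B] [DistribMulAction H B]

/-- (full) coinduction along `r : H →* G`: functions `f : G → B` with `f (r h * g) = h • f g`,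
`G` acting by right translation. -/
def Coind : AddSubgroup (G → B) where
  carrier := {f | ∀ (h : H) (g : G), f (r h * g) = h • f g}
  zero_mem' := fun h g => by simp
  add_mem' := fun {a b} ha hb h g => by simp only [Pi.add_apply, ha h g, hb h g, smul_add]
  neg_mem' := fun {a} ha h g => by simp only [Pi.neg_apply, ha h g, smul_neg]

instance : DistribMulAction G (Coind r B) where
  smul γ f := ⟨fun g => (f : G → B) (g * γ), fun h g => by
    have := f.2 h (g * γ)
    simpa [mul_assoc] using this⟩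
  one_smul f := Subtype.ext (funext fun g => by
    show (f : G → B) (g * 1) = (f : G → B) g
    rw [mul_one])
  mul_smul γ δ f := Subtype.ext (funext fun g => by
    show (f : G → B) (g * (γ * δ)) = (f : G → B) (g * γ * δ)
    rw [mul_assoc])
  smul_zero γ := rfl
  smul_add γ f f' := rfl

@[simp] lemma Coind.smul_apply (γ : G) (f : Coind r B) (g : G) :
    ((γ • f : Coind r B) : G → B) g = (f : G → B) (g * γ) := rfl

/-- smooth coinduction with respect to a level system on `G`: the elements of `Coind r B`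
that are right-invariant under some level. -/
def SCoind (𝓤 : Lev G) : AddSubgroup (G → B) where
  carrier := {f | (∀ (h : H) (g : G), f (r h * g) = h • f g) ∧ 𝓤.Const₁ f}
  zero_mem' := ⟨fun h g => by simp, Lev.const₁_const (0 : B)⟩
  add_mem' := fun {a b} ha hb =>
    ⟨fun h g => by simp only [Pi.add_apply, ha.1 h g, hb.1 h g, smul_add], ha.2.add hb.2⟩
  neg_mem' := fun {a} ha =>
    ⟨fun h g => by simp only [Pi.neg_apply, ha.1 h g, smul_neg], ha.2.comp (fun x => -x)⟩

instance (𝓤 : Lev G) : DistribMulAction G (SCoind r B 𝓤) where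
  smul γ f := ⟨fun g => (f : G → B) (g * γ), fun h g => by
      have := f.2.1 h (g * γ)
      simpa [mul_assoc] using this, by
      obtain ⟨U, hU, hc⟩ := f.2.2
      refine ⟨U, hU, fun g s hs => ?_⟩
      have hn : γ⁻¹ * s * γ ∈ U := by
        have := (𝓤.normal U hU).conj_mem s hs γ⁻¹
        simpa using this
      have := hc (g * γ) _ hn
      show (f : G → B) (g * s * γ) = (f : G → B) (g * γ)
      rw [← this]
      congr 1
      group⟩
  one_smul f := Subtype.ext (funext fun g => by
    show (f : G → B) (g * 1) = (f : G → B) g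
    rw [mul_one])
  mul_smul γ δ f := Subtype.ext (funext fun g => by
    show (f : G → B) (g * (γ * δ)) = (f : G → B) (g * γ * δ)
    rw [mul_assoc])
  smul_zero γ := rfl
  smul_add γ f f' := rfl

@[simp] lemma SCoind.smul_apply (𝓤 : Lev G) (γ : G) (f : SCoind r B 𝓤) (g : G) :
    ((γ • f : SCoind r B 𝓤) : G → B) g = (f : G → B) (g * γ) := rfl

end Coinduction

section AdditiveAction

/-- a multiplicative action on a commutative group, written additively -/
instance additiveAction {G : Type u} {M : Type v} [Monoid G] [CommGroup M]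
    [MulDistribMulAction G M] : DistribMulAction G (Additive M) where
  smul g a := Additive.ofMul (g • a.toMul)
  one_smul a := by
    show Additive.ofMul ((1 : G) • a.toMul) = a
    rw [one_smul]; rfl
  mul_smul g h a := by
    show Additive.ofMul ((g * h) • a.toMul) = Additive.ofMul (g • h • a.toMul)
    rw [mul_smul]
  smul_zero g := by
    show Additive.ofMul (g • (1 : M)) = 0
    rw [smul_one]; rfl
  smul_add g a b := by
    show Additive.ofMul (g • (a.toMul * b.toMul)) = _
    rw [smul_mul']; rfl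

@[simp] lemma smul_ofMul {G : Type u} {M : Type v} [Monoid G] [CommGroup M]
    [MulDistribMulAction G M] (g : G) (x : M) :
    g • Additive.ofMul x = Additive.ofMul (g • x) := rfl

@[simp] lemma toMul_smul {G : Type u} {M : Type v} [Monoid G] [CommGroup M]
    [MulDistribMulAction G M] (g : G) (a : Additive M) :
    (g • a).toMul = g • a.toMul := rfl

end AdditiveAction

/-- `C` is a class module at `p` for the finite group `G`, with fundamental cocycle `u`. -/
structure IsClassModule (p : ℕ) (G : Type u) [Group G] (C : Type v) [AddCommGroup C]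
    [DistribMulAction G C] (u : G × G → C) : Prop where
  cocycle : IsCocycle₂ u
  h1 : ∀ H : Subgroup G, IsPGroup p H → ∀ f : H → C, IsCocycle₁ f → IsCoboundary₁ f
  h2gen : ∀ H : Subgroup G, IsPGroup p H → ∀ f : H × H → C, IsCocycle₂ f →
    ∃ k : ℤ, IsCoboundary₂ (f - k • fun x : H × H => u ((x.1 : G), (x.2 : G)))
  h2ord : ∀ H : Subgroup G, IsPGroup p H → ∀ k : ℤ,
    IsCoboundary₂ (k • fun x : H × H => u ((x.1 : G), (x.2 : G))) → (Nat.card H : ℤ) ∣ k

end Fermat.Agent.S55Lib
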