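import Fermat.Agent.S55.Core

/-! # S55 chapters H, T, B: shared definitions of the root statements (finite groups, pure algebra) -/

set_option autoImplicit false

namespace Fermat.Agent.S55Lib

open groupCohomology

/-! ## Chapter H: cyclic groups of order `p`, Chevalley's formula -/

section ChapterH

variable {A : Type} [AddCommGroup A]

/-- `ker (σ - 1)` -/
def fixσ (σ : AddMonoid.End A) : AddSubgroup A := AddMonoidHom.ker (σ - 1 : AddMonoid.End A)
/-- the norm `1 + σ + ... + σ^(p-1)` -/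
def normσ (p : ℕ) (σ : AddMonoid.End A) : AddMonoid.End A := ∑ i ∈ Finset.range p, σ ^ i
/-- `Ĥ⁰ = ker (σ-1) / im N` -/
abbrev Hhat0 (p : ℕ) (σ : AddMonoid.End A) : Type :=
  ↥(fixσ σ) ⧸ (AddMonoidHom.range (normσ p σ)).addSubgroupOf (fixσ σ)
/-- `Ĥ¹ = ker N / im (σ-1)` -/
abbrev Hhat1 (p : ℕ) (σ : AddMonoid.End A) : Type :=
  ↥(AddMonoidHom.ker (normσ p σ)) ⧸
    (AddMonoidHom.range (σ - 1 : AddMonoid.End A)).addSubgroupOf (AddMonoidHom.ker (normσ p σ))
/-- `A / pA` -/
abbrev modp (p : ℕ) (B : Type) [AddCommGroup B] : Type :=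
  B ⧸ AddMonoidHom.range (p • AddMonoidHom.id B)
/-- `A[p]` -/
abbrev torp (p : ℕ) (B : Type) [AddCommGroup B] : AddSubgroup B :=
  AddMonoidHom.ker (p • AddMonoidHom.id B)


end ChapterH

/-! ## Chapter T: Tate-Nakayama in degrees (0,2) -/

section ChapterT

variable {G : Type} [Group G] [Finite G]

/-- the norm `N_G` on a `G`-module -/
noncomputable def normG (G : Type) [Group G] [Finite G] (A : Type) [AddCommGroup A]
    [DistribMulAction G A] : A →+ A :=
  haveI := Fintype.ofFinite G
  ∑ g : G, DistribSMul.toAddMonoidHom A g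





end ChapterT

/-! ## Chapter B: the formal Theorem B -/

section ChapterB

variable {G : Type} [Group G] [Finite G]

/-- `X` is a finitely generated free `ℤ[G]`-module. -/
def IsFreeZG (G : Type) [Group G] (X : Type) [AddCommGroup X] [DistribMulAction G X] : Prop :=
  ∃ (n : ℕ) (e : Fin n → X), Function.Bijective
    (fun c : (Fin n × G) →₀ ℤ => c.sum fun ig k => k • (ig.2 • e ig.1))

/-- `Ш¹`: classes of 1-cocycles whose restriction to each `D v` is a coboundary. -/
def Sha1 (G : Type) [Group G] (N : Type) [AddCommGroup N] [DistribMulAction G N]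
    {ι : Type} (D : ι → Subgroup G) : AddSubgroup (H1 G N) where
  carrier := {x | ∃ f : Z1 G N, H1.mk f = x ∧
    ∀ v, IsCoboundary₁ (fun d : D v => (f : G → N) (d : G))}
  zero_mem' := ⟨0, rfl, fun v => ⟨0, fun d => by simp⟩⟩
  add_mem' := by
    rintro _ _ ⟨f, rfl, hf⟩ ⟨f', rfl, hf'⟩
    refine ⟨f + f', rfl, fun v => ?_⟩
    obtain ⟨x, hx⟩ := hf v
    obtain ⟨y, hy⟩ := hf' v
    exact ⟨x + y, fun d => by
      simp only [AddSubgroup.coe_add, Pi.add_apply, ← hx d, ← hy d, smul_add]; abel⟩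
  neg_mem' := by
    rintro _ ⟨f, rfl, hf⟩
    refine ⟨-f, rfl, fun v => ?_⟩
    obtain ⟨x, hx⟩ := hf v
    exact ⟨-x, fun d => by
      simp only [AddSubgroup.coe_neg, Pi.neg_apply, ← hx d, smul_neg]; abel⟩

/-- post-composition `Hom(X,A) → Hom(X,B)` -/
def HomM.post {X A B : Type} [AddCommGroup X] [AddCommGroup A] [AddCommGroup B]
    [DistribMulAction G X] [DistribMulAction G A] [DistribMulAction G B] (π : A →+ B) :
    HomM G X A →+ HomM G X B where
  toFun φ := HomM.of (π.comp φ.toHom)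
  map_zero' := by ext x; exact map_zero π
  map_add' φ ψ := by ext x; exact map_add π _ _

/-- pre-composition `Hom(Y,A) → Hom(X,A)` -/
def HomM.pre {X Y A : Type} [AddCommGroup X] [AddCommGroup Y] [AddCommGroup A]
    [DistribMulAction G X] [DistribMulAction G Y] [DistribMulAction G A] (j : X →+ Y) :
    HomM G Y A →+ HomM G X A where
  toFun φ := HomM.of (φ.toHom.comp j)
  map_zero' := by ext x; rfl
  map_add' φ ψ := by ext x; rfl


end ChapterB

end Fermat.Agent.S55Lib
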