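import Fermat.Agent.S55.Core

/-! # S55: pull-back of a level system -/

set_option autoImplicit false

namespace Fermat.Agent.S55Lib

/-- pull-back of a level system -/
def Lev.comap {G H : Type} [Group G] [Group H] (r : H →* G) (𝓤 : Lev G) : Lev H where
  mem := {W | ∃ U ∈ 𝓤.mem, W = U.comap r}
  normal := by
    rintro W ⟨U, hU, rfl⟩
    haveI := 𝓤.normal U hU
    infer_instance
  finiteIndex := by
    rintro W ⟨U, hU, rfl⟩
    have hU' := 𝓤.finiteIndex U hU
    constructor
    rw [Subgroup.index_comap]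
    intro h
    exact hU'.index_ne_zero (Subgroup.index_eq_zero_of_relIndex_eq_zero h)
  nonempty := by
    obtain ⟨U, hU⟩ := 𝓤.nonempty
    exact ⟨_, U, hU, rfl⟩
  directed := by
    rintro _ ⟨U, hU, rfl⟩ _ ⟨V, hV, rfl⟩
    obtain ⟨W, hW, h1, h2⟩ := 𝓤.directed U hU V hV
    exact ⟨_, ⟨W, hW, rfl⟩, Subgroup.comap_mono h1, Subgroup.comap_mono h2⟩

end Fermat.Agent.S55Lib
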